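import Mathlib

/-!
# P-S44/S40, block C3, leaf ET-NORMAL (helper29): `R[ϖ]` is integrally closed

Abstract commutative algebra, Mathlib only.  Consumer: the etale lift `C3-ET` (helper2 note 2547,
Claim A; hidden input made explicit by helper94, note 2589): for the regular node ring `R_s` over
`O0` (a UFD with the two prime elements `u`, `u'`, `u u' = p Ψ`, `Ψ` a unit) the ring
`R_s[ϖ]`, `ϖ ^ (p - 1) = - p`, is the `A_(p-2)` surface singularity: NOT factorial, but integrally
closed in its fraction field.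

Proof: `Algebra.discr_mul_isIntegral_mem_adjoin` (`discr • z ∈ R[ϖ]` for `z` integral over `R`)
and `mem_adjoin_of_smul_prime_pow_smul_of_minpoly_isEisensteinAt`, applied at the two primes `u`
and `u'` (the minimal polynomial `X ^ n + a`, `a = c u u'`, is Eisenstein at both, and its
discriminant is `± n ^ n a ^ (n - 1)`, a unit times `(u u') ^ (n - 1)` when `n` is a unit of `R`).

* `mem_adjoin_of_isIntegral_of_eisenstein_two` : the abstract two-prime statement;
* `isEisensteinAt_X_pow_add_C`, `minpoly_field_eq_of_pow_eq`, `minpoly_eq_of_pow_eq`,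
  `discr_eq_of_pow_eq` : Eisenstein property, minimal polynomials and discriminant of a power basis
  with `gen ^ dim = - a`;
* `mem_adjoin_of_isIntegral_of_pow_eq` : **the leaf**: `gen ^ dim = - a`, `a = c * u * u'` with `c` a
  unit, `u`, `u'` non-associated primes, `dim` a unit of `R`; then every `z : L` integral over `R`
  lies in `R[gen]`;
* `integralClosure_eq_adjoin_of_pow_eq`, `mem_adjoin_of_pow_mem_adjoin` (the form consumed by ET:
  `m ^ k ∈ R[ϖ] → m ∈ R[ϖ]`);
* `mem_adjoin_of_isIntegral_of_adjoin_eq_top` : the same WITHOUT a given power basis: `ϖ : L`,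
  `ϖ ^ n = - a`, `Algebra.adjoin K {ϖ} = ⊤`.

Instance for ET: `R = R_s` (UFD, so integrally closed: Mathlib instance), `K = F_0`, `L = F_1`,
`ϖ ^ (p - 1) = - p`, `a = p = Ψ⁻¹ u u'`, `n = p - 1` (a unit of `R_s` because `p ∈ 𝔪`).
-/

set_option autoImplicit false
set_option linter.unusedSectionVars false

namespace Fermat.Agent.S40x.R2.Et.NormalEis

open Algebra Polynomial

variable {R K L : Type*} [CommRing R] [IsDomain R] [IsIntegrallyClosed R] [Field K] [Field L]
  [Algebra R K] [IsFractionRing R K] [Algebra K L] [Algebra R L] [IsScalarTower R K L]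
  [Algebra.IsSeparable K L]

/-- **Two-prime Eisenstein criterion.**  If the minimal polynomial of the integral generator of a
power basis is Eisenstein at two primes `u`, `u'` of the integrally closed domain `R`, and the
discriminant of the power basis divides `(u u') ^ m`, then `R[gen]` contains every element of `L`
integral over `R`. -/
theorem mem_adjoin_of_isIntegral_of_eisenstein_two
    (B : PowerBasis K L) (hint : IsIntegral R B.gen) {u u' : R} (hu : Prime u) (hu' : Prime u')
    (heiu : (minpoly R B.gen).IsEisensteinAt (Submodule.span R {u}))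
    (heiu' : (minpoly R B.gen).IsEisensteinAt (Submodule.span R {u'}))
    {m : ℕ} {d : R} (hd : algebraMap R K d * discr K B.basis = algebraMap R K ((u * u') ^ m))
    {z : L} (hz : IsIntegral R z) : z ∈ adjoin R ({B.gen} : Set L) := by
  have := B.finite
  have H := discr_mul_isIntegral_mem_adjoin K hint hz
  have H2 : d • (discr K B.basis • z) ∈ adjoin R ({B.gen} : Set L) := Subalgebra.smul_mem _ H d
  have e : d • (discr K B.basis • z) = u ^ m • (u' ^ m • z) := by
    rw [← algebraMap_smul K d (discr K B.basis • z), smul_smul, hd, algebraMap_smul, mul_pow,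
      mul_smul]
  rw [e] at H2
  have h1 : u' ^ m • z ∈ adjoin R ({B.gen} : Set L) :=
    mem_adjoin_of_smul_prime_pow_smul_of_minpoly_isEisensteinAt hu hint (hz.smul _) H2 heiu
  exact mem_adjoin_of_smul_prime_pow_smul_of_minpoly_isEisensteinAt hu' hint hz h1 heiu'

/-! ### Power bases with `gen ^ dim = - a` -/

section PowEq

variable (B : PowerBasis K L) {a : R} (hgen : B.gen ^ B.dim = - algebraMap R L a)
include hgen

/-- the generator is a root of `X ^ dim + a` -/
theorem aeval_gen_eq_zero : aeval B.gen (X ^ B.dim + C a : R[X]) = 0 := by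
  rw [map_add, map_pow, aeval_X, aeval_C, hgen, neg_add_cancel]

theorem monic_genPoly : (X ^ B.dim + C a : R[X]).Monic :=
  Polynomial.monic_X_pow_add_C a B.dim_pos.ne'

theorem isIntegral_gen : IsIntegral R B.gen :=
  ⟨_, monic_genPoly B hgen, by
    have := aeval_gen_eq_zero B hgen
    rwa [aeval_def] at this⟩

omit hgen in
/-- `X ^ n + a` is Eisenstein at `(u)` when `a = c u u'`, `c` a unit, `u ∤ u'`. -/
theorem isEisensteinAt_X_pow_add_C {n : ℕ} (hn : 0 < n) {c u u' : R} (hu : Prime u)
    (hc : IsUnit c) (ha : a = c * u * u') (huu' : ¬ u ∣ u') :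
    (X ^ n + C a : R[X]).IsEisensteinAt (Submodule.span R {u}) := by
  have hmonic : (X ^ n + C a : R[X]).Monic := Polynomial.monic_X_pow_add_C a hn.ne'
  have hdeg : (X ^ n + C a : R[X]).natDegree = n := natDegree_X_pow_add_C
  have hprime : (Ideal.span {u} : Ideal R).IsPrime :=
    (Ideal.span_singleton_prime hu.ne_zero).2 hu
  refine ⟨?_, ?_, ?_⟩
  · rw [hmonic.leadingCoeff]
    exact fun h => hprime.ne_top ((Ideal.eq_top_iff_one _).2 h)
  · intro k hk
    rw [hdeg] at hk
    rw [coeff_add, coeff_X_pow, if_neg hk.ne, zero_add, coeff_C]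
    split_ifs
    · rw [ha]
      exact Ideal.mem_span_singleton.2 ⟨c * u', by ring⟩
    · exact Submodule.zero_mem _
  · rw [coeff_add, coeff_X_pow, if_neg hn.ne, zero_add, coeff_C_zero]
    intro h
    have h2 : (Submodule.span R {u} : Ideal R) ^ 2 = Ideal.span {u ^ 2} :=
      Ideal.span_singleton_pow u 2
    rw [h2, Ideal.mem_span_singleton, ha] at h
    obtain ⟨t, ht⟩ := h
    have h3 : c * u' = u * t := by
      apply mul_left_cancel₀ hu.ne_zero
      linear_combination ht
    have h4 : u ∣ c * u' := ⟨t, h3⟩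
    rcases hu.dvd_or_dvd h4 with h5 | h5
    · exact hu.not_isUnit (isUnit_of_dvd_unit h5 hc)
    · exact huu' h5

end PowEq

section Minpoly
variable (B : PowerBasis K L) {a : R} (hgen : B.gen ^ B.dim = - algebraMap R L a)
include hgen

/-- the minimal polynomial over `K` of the generator is `X ^ dim + a` -/
theorem minpoly_field_eq_of_pow_eq :
    minpoly K B.gen = X ^ B.dim + C (algebraMap R K a) := by
  have hmonic : (X ^ B.dim + C (algebraMap R K a) : K[X]).Monic :=
    Polynomial.monic_X_pow_add_C _ B.dim_pos.ne'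
  have h0 : aeval B.gen (X ^ B.dim + C (algebraMap R K a) : K[X]) = 0 := by
    rw [map_add, map_pow, aeval_X, aeval_C, hgen, ← IsScalarTower.algebraMap_apply,
      neg_add_cancel]
  have hdvd : minpoly K B.gen ∣ X ^ B.dim + C (algebraMap R K a) := minpoly.dvd K B.gen h0
  refine (Polynomial.eq_of_monic_of_dvd_of_natDegree_le (minpoly.monic B.isIntegral_gen) hmonic
    hdvd ?_).symm
  rw [natDegree_X_pow_add_C, B.natDegree_minpoly]

/-- the minimal polynomial over `R` of the generator is `X ^ dim + a` -/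
theorem minpoly_eq_of_pow_eq : minpoly R B.gen = X ^ B.dim + C a := by
  have h1 := minpoly.isIntegrallyClosed_eq_field_fractions' K (isIntegral_gen B hgen)
  rw [minpoly_field_eq_of_pow_eq B hgen] at h1
  apply Polynomial.map_injective (algebraMap R K) (IsFractionRing.injective R K)
  rw [← h1, Polynomial.map_add, Polynomial.map_pow, map_X, map_C]
end Minpoly

section Discr
variable (B : PowerBasis K L) {a : R} (hgen : B.gen ^ B.dim = - algebraMap R L a)
include hgen

/-- the discriminant of the power basis is `± dim ^ dim * a ^ (dim - 1)` -/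
theorem discr_eq_of_pow_eq :
    discr K B.basis = (-1) ^ (B.dim * (B.dim - 1) / 2) *
      ((B.dim : K) ^ B.dim * ((-1) ^ B.dim * algebraMap R K a) ^ (B.dim - 1)) := by
  have := B.finite
  have hcoeff : (minpoly K B.gen).coeff 0 = algebraMap R K a := by
    rw [minpoly_field_eq_of_pow_eq B hgen, coeff_add, coeff_X_pow, if_neg B.dim_pos.ne,
      zero_add, coeff_C_zero]
  rw [discr_powerBasis_eq_norm, B.finrank]
  congr 1
  rw [minpoly_field_eq_of_pow_eq B hgen, derivative_add, derivative_X_pow, derivative_C, add_zero,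
    map_mul, aeval_C, map_pow, aeval_X, map_mul, Algebra.norm_algebraMap, map_pow, B.finrank,
    PowerBasis.norm_gen_eq_coeff_zero_minpoly, hcoeff]
end Discr

section Main
variable (B : PowerBasis K L) {a : R} (hgen : B.gen ^ B.dim = - algebraMap R L a)
include hgen

/-- **`R[ϖ]` is integrally closed** (leaf ET-NORMAL): `ϖ ^ n = - a`, `a = c u u'` with `c` a unit and
`u`, `u'` non-associated primes of the integrally closed domain `R`, `n` a unit of `R`; then every
element of `L = K(ϖ)` integral over `R` lies in `R[ϖ]`. -/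
theorem mem_adjoin_of_isIntegral_of_pow_eq {c u u' : R} (hu : Prime u) (hu' : Prime u')
    (hc : IsUnit c) (ha : a = c * u * u') (huu' : ¬ u ∣ u') (hu'u : ¬ u' ∣ u)
    (hn : IsUnit (B.dim : R)) {z : L} (hz : IsIntegral R z) :
    z ∈ adjoin R ({B.gen} : Set L) := by
  have hint := isIntegral_gen B hgen
  have hmin := minpoly_eq_of_pow_eq (K := K) B hgen
  have heiu : (minpoly R B.gen).IsEisensteinAt (Submodule.span R {u}) := by
    rw [hmin]
    exact isEisensteinAt_X_pow_add_C B.dim_pos hu hc ha huu'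
  have heiu' : (minpoly R B.gen).IsEisensteinAt (Submodule.span R {u'}) := by
    rw [hmin]
    exact isEisensteinAt_X_pow_add_C B.dim_pos hu' hc (by rw [ha]; ring) hu'u
  obtain ⟨ν, hν⟩ := hn.exists_left_inv
  obtain ⟨γ, hγ⟩ := hc.exists_left_inv
  set e1 := B.dim * (B.dim - 1) / 2 with he1
  set n := B.dim with hn'
  -- the co-factor of the discriminant
  set d : R := ((-1) ^ e1 * ((-1) ^ n) ^ (n - 1)) * ν ^ n * γ ^ (n - 1) with hd
  have hsq1 : ((-1 : R) ^ e1) * ((-1) ^ e1) = 1 := by
    rw [← mul_pow]; simp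
  have hsq2 : (((-1 : R) ^ n) ^ (n - 1)) * (((-1) ^ n) ^ (n - 1)) = 1 := by
    rw [← mul_pow, ← mul_pow]; simp
  have hR : d * ((-1) ^ e1 * ((n : R) ^ n * ((-1) ^ n * a) ^ (n - 1))) = (u * u') ^ (n - 1) := by
    have h1 : d * ((-1) ^ e1 * ((n : R) ^ n * ((-1) ^ n * a) ^ (n - 1)))
        = (((-1 : R) ^ e1) * ((-1) ^ e1)) * ((((-1 : R) ^ n) ^ (n - 1)) * (((-1) ^ n) ^ (n - 1)))
          * (ν * (n : R)) ^ n * (γ * c) ^ (n - 1) * (u * u') ^ (n - 1) := by
      rw [hd, ha]; ring
    rw [h1, hsq1, hsq2, hν, hγ]; simp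
  refine mem_adjoin_of_isIntegral_of_eisenstein_two (K := K) B hint hu hu' heiu heiu'
    (m := n - 1) (d := d) ?_ hz
  rw [discr_eq_of_pow_eq B hgen, ← hR]
  simp only [map_mul, map_pow, map_neg, map_one, map_natCast]
  rfl
end Main

section Closure
variable (B : PowerBasis K L) {a : R} (hgen : B.gen ^ B.dim = - algebraMap R L a)
include hgen

/-- `R[ϖ]` is the integral closure of `R` in `L`. -/
theorem integralClosure_eq_adjoin_of_pow_eq {c u u' : R} (hu : Prime u) (hu' : Prime u')
    (hc : IsUnit c) (ha : a = c * u * u') (huu' : ¬ u ∣ u') (hu'u : ¬ u' ∣ u)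
    (hn : IsUnit (B.dim : R)) : integralClosure R L = adjoin R ({B.gen} : Set L) := by
  apply le_antisymm
  · intro z hz
    exact mem_adjoin_of_isIntegral_of_pow_eq B hgen hu hu' hc ha huu' hu'u hn hz
  · refine adjoin_le ?_
    rintro _ rfl
    exact isIntegral_gen B hgen

/-- the form consumed by `C3-ET`: roots of elements of `R[ϖ]` lying in `L` are in `R[ϖ]`. -/
theorem mem_adjoin_of_pow_mem_adjoin {c u u' : R} (hu : Prime u) (hu' : Prime u')
    (hc : IsUnit c) (ha : a = c * u * u') (huu' : ¬ u ∣ u') (hu'u : ¬ u' ∣ u)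
    (hn : IsUnit (B.dim : R)) {m : L} {k : ℕ} (hk : 0 < k)
    (hm : m ^ k ∈ adjoin R ({B.gen} : Set L)) : m ∈ adjoin R ({B.gen} : Set L) := by
  have h := integralClosure_eq_adjoin_of_pow_eq B hgen hu hu' hc ha huu' hu'u hn
  rw [← h] at hm ⊢
  exact IsIntegral.of_pow hk hm
end Closure

/-! ### The same without a given power basis -/

section NoBasis

/-- **Consumer form**: `L = K[ϖ]` (as a `K`-algebra), `ϖ ^ n = - a`, `a = c u u'`, `n` a unit of `R`:
every element of `L` integral over `R` lies in `R[ϖ]`. -/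
theorem mem_adjoin_of_isIntegral_of_adjoin_eq_top {ϖ : L} {n : ℕ} (hn0 : 0 < n) {a c u u' : R}
    (hϖ : ϖ ^ n = - algebraMap R L a) (htop : adjoin K ({ϖ} : Set L) = ⊤)
    (hu : Prime u) (hu' : Prime u') (hc : IsUnit c) (ha : a = c * u * u') (huu' : ¬ u ∣ u')
    (hu'u : ¬ u' ∣ u) (hn : IsUnit (n : R)) {z : L} (hz : IsIntegral R z) :
    z ∈ adjoin R ({ϖ} : Set L) := by
  have hmonicR : (X ^ n + C a : R[X]).Monic := Polynomial.monic_X_pow_add_C a hn0.ne'
  have hprime : Ideal.IsPrime (Submodule.span R {u}) :=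
    (Ideal.span_singleton_prime hu.ne_zero).2 hu
  have hirrR : Irreducible (X ^ n + C a : R[X]) :=
    (isEisensteinAt_X_pow_add_C hn0 hu hc ha huu').irreducible hprime hmonicR.isPrimitive
      (by rw [natDegree_X_pow_add_C]; exact hn0)
  have hirrK : Irreducible ((X ^ n + C a : R[X]).map (algebraMap R K)) :=
    (hmonicR.irreducible_iff_irreducible_map_fraction_map).1 hirrR
  have h0 : aeval ϖ ((X ^ n + C a : R[X]).map (algebraMap R K)) = 0 := by
    rw [aeval_map_algebraMap, map_add, map_pow, aeval_X, aeval_C, hϖ, neg_add_cancel]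
  have hminK : (X ^ n + C a : R[X]).map (algebraMap R K) = minpoly K ϖ :=
    minpoly.eq_of_irreducible_of_monic hirrK h0 (hmonicR.map _)
  have hintK : IsIntegral K ϖ := ⟨_, hmonicR.map _, by rwa [aeval_def] at h0⟩
  set B : PowerBasis K L := PowerBasis.ofAdjoinEqTop hintK htop with hB
  have hBgen : B.gen = ϖ := PowerBasis.ofAdjoinEqTop_gen hintK htop
  have hBdim : B.dim = n := by
    rw [hB, PowerBasis.ofAdjoinEqTop_dim, ← hminK, hmonicR.natDegree_map, natDegree_X_pow_add_C]
  have hgen : B.gen ^ B.dim = - algebraMap R L a := by rw [hBgen, hBdim, hϖ]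
  have := mem_adjoin_of_isIntegral_of_pow_eq B hgen hu hu' hc ha huu' hu'u
    (by rw [hBdim]; exact hn) hz
  rwa [hBgen] at this

end NoBasis

end Fermat.Agent.S40x.R2.Et.NormalEis
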